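import Mathlib

/-!
# S58 / E9 : the 16 elliptic curves over `𝔽₂`: classification and point counts
-/

set_option autoImplicit false

namespace Fermat.Agent.S58.Two

open WeierstrassCurve

/-- number of affine solutions over `𝔽₂`. -/
def cnt (a1 a2 a3 a4 a6 : ZMod 2) : ℕ :=
  (Finset.univ.filter (fun p : ZMod 2 × ZMod 2 =>
    p.2 ^ 2 + a1 * p.1 * p.2 + a3 * p.2 = p.1 ^ 3 + a2 * p.1 ^ 2 + a4 * p.1 + a6)).card

theorem classify : ∀ a1 a2 a3 a4 a6 : ZMod 2,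
    (⟨a1, a2, a3, a4, a6⟩ : WeierstrassCurve (ZMod 2)).Δ ≠ 0 →
    (a1 = 0 ∧ a3 = 1 ∧ a2 = a4 ∧ cnt a1 a2 a3 a4 a6 = 2) ∨
    (a1 = 0 ∧ a3 = 1 ∧ a2 = a4 + 1 ∧ a6 = 1 ∧ cnt a1 a2 a3 a4 a6 = 0) ∨
    (a1 = 0 ∧ a3 = 1 ∧ a2 = a4 + 1 ∧ a6 = 0 ∧ cnt a1 a2 a3 a4 a6 = 4) ∨
    (a1 = 1 ∧ a2 = a3 + 1 ∧ a6 = 1 + a3 * a4 + (a3 + 1) * a3 + a4 ∧ cnt a1 a2 a3 a4 a6 = 1) ∨
    (a1 = 1 ∧ a2 = a3 ∧ a6 = 1 + a3 * a4 + a3 * a3 + a4 ∧ cnt a1 a2 a3 a4 a6 = 3) := by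
  decide

/-- points = origin + affine solutions. -/
noncomputable def pointEquivOptionPair {F : Type*} [Field F] (W : WeierstrassCurve F)
    (hΔ : W.Δ ≠ 0) :
    W.toAffine.Point ≃ Option {p : F × F // W.toAffine.Equation p.1 p.2} where
  toFun P := match P with
    | .zero => none
    | .some x y h => some ⟨(x, y), h.1⟩
  invFun o := match o with
    | none => .zero
    | some ⟨(x, y), h⟩ => .some x y ((W.toAffine.equation_iff_nonsingular_of_Δ_ne_zero hΔ).1 h)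
  left_inv P := by cases P <;> rfl
  right_inv o := by
    rcases o with _ | ⟨⟨x, y⟩, h⟩ <;> rfl

theorem card_eq_cnt (W : WeierstrassCurve (ZMod 2)) (hΔ : W.Δ ≠ 0) :
    Nat.card W.toAffine.Point = cnt W.a₁ W.a₂ W.a₃ W.a₄ W.a₆ + 1 := by
  classical
  rw [Nat.card_congr (pointEquivOptionPair W hΔ), Nat.card_eq_fintype_card, Fintype.card_option,
    Fintype.card_subtype, cnt]
  congr 2
  ext p
  simp only [Finset.mem_filter, Finset.mem_univ, true_and]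
  exact WeierstrassCurve.Affine.equation_iff _ _

theorem sq_eq_self_zmod2 : ∀ a : ZMod 2, a ^ 2 = a := by decide

end Fermat.Agent.S58.Two
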