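import Fermat.Agent.S58.Two.Chord

/-!
# S58 / E9 : ordinary curves over `𝔽₂` (`a₁ = 1`): `φ² ∓ φ + 2 = 0` at points with `x² ≠ x`

`R = ±Q - φQ` has the closed form `x_R u = A := x² + a₃x + 1`,
`y_R u² = B := x³ + (1+a₃)x² + a₃x + (1+a₃+a₄) + (x²+1+a₃) y`, `u = x + a₃`, and `2Q = ± φ R`.
-/

set_option autoImplicit false
set_option linter.unusedVariables false
set_option linter.unusedSectionVars false

namespace Fermat.Agent.S58.Two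

open WeierstrassCurve WeierstrassCurve.Affine WeierstrassCurve.Affine.Point
open Fermat.Agent.S05 Fermat.Agent.HW

section polys

variable {L : Type*} [Field L]
variable [CharP L 2] {x y a3 a4 : L}

theorem polyA_pos (i3 : a3 ^ 2 = a3) (i4 : a4 ^ 2 = a4)
    (e : y ^ 2 + 1 * x * y + a3 * y = x ^ 3 + (a3 + 1) * x ^ 2 + a4 * x + (1 + a3 * a4 + (a3 + 1) * a3 + a4)) :
    ((y - (-y ^ 2 - x ^ 2 - a3)) ^ 2 + 1 * (y - (-y ^ 2 - x ^ 2 - a3)) * (x - x ^ 2)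
      - ((a3 + 1) + x + x ^ 2) * (x - x ^ 2) ^ 2) * (x + a3) = (x ^ 2 + a3 * x + 1) * (x - x ^ 2) ^ 2 := by
  grind

theorem polyA_neg (i3 : a3 ^ 2 = a3) (i4 : a4 ^ 2 = a4)
    (e : y ^ 2 + 1 * x * y + a3 * y = x ^ 3 + a3 * x ^ 2 + a4 * x + (1 + a3 * a4 + a3 * a3 + a4)) :
    ((y - y ^ 2) ^ 2 + 1 * (y - y ^ 2) * (x - x ^ 2)
      - (a3 + x + x ^ 2) * (x - x ^ 2) ^ 2) * (x + a3) = (x ^ 2 + a3 * x + 1) * (x - x ^ 2) ^ 2 := by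
  grind

theorem polyB_pos (i3 : a3 ^ 2 = a3) (i4 : a4 ^ 2 = a4)
    (e : y ^ 2 + 1 * x * y + a3 * y = x ^ 3 + (a3 + 1) * x ^ 2 + a4 * x + (1 + a3 * a4 + (a3 + 1) * a3 + a4)) :
    (-((y - (-y ^ 2 - x ^ 2 - a3)) * ((x ^ 2 + a3 * x + 1) - x * (x + a3)) + y * (x - x ^ 2) * (x + a3))
        - (1 * (x ^ 2 + a3 * x + 1) + a3 * (x + a3)) * (x - x ^ 2)) * (x + a3)
      = (x ^ 3 + (1 + a3) * x ^ 2 + a3 * x + (1 + a3 + a4) + (x ^ 2 + 1 + a3) * y) * (x - x ^ 2) := by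
  grind

theorem polyB_neg (i3 : a3 ^ 2 = a3) (i4 : a4 ^ 2 = a4)
    (e : y ^ 2 + 1 * x * y + a3 * y = x ^ 3 + a3 * x ^ 2 + a4 * x + (1 + a3 * a4 + a3 * a3 + a4)) :
    (-((y - y ^ 2) * ((x ^ 2 + a3 * x + 1) - x * (x + a3)) + y * (x - x ^ 2) * (x + a3))
        - (1 * (x ^ 2 + a3 * x + 1) + a3 * (x + a3)) * (x - x ^ 2)) * (x + a3)
      = (x ^ 3 + (1 + a3) * x ^ 2 + a3 * x + (1 + a3 + a4) + (x ^ 2 + 1 + a3) * y) * (x - x ^ 2) := by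
  grind

theorem polyC_pos (i3 : a3 ^ 2 = a3) (i4 : a4 ^ 2 = a4)
    (e : y ^ 2 + 1 * x * y + a3 * y = x ^ 3 + (a3 + 1) * x ^ 2 + a4 * x + (1 + a3 * a4 + (a3 + 1) * a3 + a4)) :
    (3 * x ^ 2 + 2 * (a3 + 1) * x + a4 - 1 * y) ^ 2
      + 1 * (3 * x ^ 2 + 2 * (a3 + 1) * x + a4 - 1 * y) * (x + a3)
      - ((a3 + 1) + 2 * x) * (x + a3) ^ 2 = (x ^ 2 + a3 * x + 1) ^ 2 := by
  grind

theorem polyC_neg (i3 : a3 ^ 2 = a3) (i4 : a4 ^ 2 = a4)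
    (e : y ^ 2 + 1 * x * y + a3 * y = x ^ 3 + a3 * x ^ 2 + a4 * x + (1 + a3 * a4 + a3 * a3 + a4)) :
    (3 * x ^ 2 + 2 * a3 * x + a4 - 1 * y) ^ 2
      + 1 * (3 * x ^ 2 + 2 * a3 * x + a4 - 1 * y) * (x + a3)
      - (a3 + 2 * x) * (x + a3) ^ 2 = (x ^ 2 + a3 * x + 1) ^ 2 := by
  grind

theorem polyD_pos (i3 : a3 ^ 2 = a3) (i4 : a4 ^ 2 = a4)
    (e : y ^ 2 + 1 * x * y + a3 * y = x ^ 3 + (a3 + 1) * x ^ 2 + a4 * x + (1 + a3 * a4 + (a3 + 1) * a3 + a4)) :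
    (-((3 * x ^ 2 + 2 * (a3 + 1) * x + a4 - 1 * y) * ((x ^ 2 + a3 * x + 1) ^ 2 - x * (x + a3) ^ 2)
        + y * (x + a3) ^ 3) - (1 * (x ^ 2 + a3 * x + 1) ^ 2 + a3 * (x + a3) ^ 2) * (x + a3)) * (x + a3)
      = (x ^ 3 + (1 + a3) * x ^ 2 + a3 * x + (1 + a3 + a4) + (x ^ 2 + 1 + a3) * y) ^ 2 := by
  grind

theorem polyD_neg (i3 : a3 ^ 2 = a3) (i4 : a4 ^ 2 = a4)
    (e : y ^ 2 + 1 * x * y + a3 * y = x ^ 3 + a3 * x ^ 2 + a4 * x + (1 + a3 * a4 + a3 * a3 + a4)) :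
    (-((3 * x ^ 2 + 2 * a3 * x + a4 - 1 * y) * ((x ^ 2 + a3 * x + 1) ^ 2 - x * (x + a3) ^ 2)
        + y * (x + a3) ^ 3) - (1 * (x ^ 2 + a3 * x + 1) ^ 2 + a3 * (x + a3) ^ 2) * (x + a3)) * (x + a3)
      = -(x ^ 3 + (1 + a3) * x ^ 2 + a3 * x + (1 + a3 + a4) + (x ^ 2 + 1 + a3) * y) ^ 2
        - 1 * (x ^ 2 + a3 * x + 1) ^ 2 * (x + a3) ^ 2 - a3 * (x + a3) ^ 4 := by
  grind

end polys

section points

variable {L : Type*} [Field L] [CharP L 2] [DecidableEq L] {E : WeierstrassCurve.Affine L}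
  {φ : E.Point →+ E.Point}

theorem u_ne_zero {x a3 : L} (i3 : a3 ^ 2 = a3) (hx : x - x ^ 2 ≠ 0) : x + a3 ≠ 0 := by
  intro h
  apply hx
  have h1 : x = a3 := by
    have h2 : x = -a3 := eq_neg_of_add_eq_zero_left h
    rw [h2, CharTwo.neg_eq]
  rw [h1, i3, sub_self]

theorem two_mul_zero (z : L) : 2 * z = 0 := by
  rw [CharTwo.two_eq_zero, zero_mul]

/-- abstract end of the argument: the coordinates. -/
theorem coords_aux {x y a2 a3 y' xR yR x2 y2 A B n2 : L}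
    (hd1 : x - x ^ 2 ≠ 0) (hu : x + a3 ≠ 0)
    (hxR : xR * (x - x ^ 2) ^ 2 = (y - y') ^ 2 + 1 * (y - y') * (x - x ^ 2)
      - (a2 + x + x ^ 2) * (x - x ^ 2) ^ 2)
    (hyR : yR * (x - x ^ 2) = -((y - y') * (xR - x) + y * (x - x ^ 2))
      - (1 * xR + a3) * (x - x ^ 2))
    (hx2 : x2 * (x + a3) ^ 2 = n2 ^ 2 + 1 * n2 * (x + a3) - (a2 + 2 * x) * (x + a3) ^ 2)
    (hy2 : y2 * (x + a3) = -(n2 * (x2 - x) + y * (x + a3)) - (1 * x2 + a3) * (x + a3))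
    (pA : ((y - y') ^ 2 + 1 * (y - y') * (x - x ^ 2)
      - (a2 + x + x ^ 2) * (x - x ^ 2) ^ 2) * (x + a3) = A * (x - x ^ 2) ^ 2)
    (pB : (-((y - y') * (A - x * (x + a3)) + y * (x - x ^ 2) * (x + a3))
        - (1 * A + a3 * (x + a3)) * (x - x ^ 2)) * (x + a3) = B * (x - x ^ 2))
    (pC : n2 ^ 2 + 1 * n2 * (x + a3) - (a2 + 2 * x) * (x + a3) ^ 2 = A ^ 2) :
    x2 = xR ^ 2 ∧ yR * (x + a3) ^ 2 = B ∧ xR * (x + a3) = A ∧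
      y2 * (x + a3) ^ 4 = (-(n2 * (A ^ 2 - x * (x + a3) ^ 2) + y * (x + a3) ^ 3)
        - (1 * A ^ 2 + a3 * (x + a3) ^ 2) * (x + a3)) * (x + a3) := by
  have hA : xR * (x + a3) = A := by
    apply mul_right_cancel₀ (pow_ne_zero 2 hd1)
    rw [← pA, ← hxR]; ring
  have hB : yR * (x + a3) ^ 2 = B := by
    apply mul_right_cancel₀ hd1
    rw [← pB, ← hA]
    linear_combination (x + a3) ^ 2 * hyR
  have hX : x2 = xR ^ 2 := by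
    apply mul_right_cancel₀ (pow_ne_zero 2 hu)
    rw [hx2, pC, ← hA]; ring
  refine ⟨hX, hB, hA, ?_⟩
  have hx2' : x2 * (x + a3) ^ 2 = A ^ 2 := by rw [hx2, pC]
  linear_combination (x + a3) ^ 3 * hy2 - (n2 + (x + a3)) * (x + a3) * hx2'

theorem ord_pos (hφ : FrobData 2 φ) (h1 : E.a₁ = 1) (i3 : E.a₃ ^ 2 = E.a₃) (i4 : E.a₄ ^ 2 = E.a₄)
    (h23 : E.a₂ = E.a₃ + 1) (h8 : E.a₆ = 1 + E.a₃ * E.a₄ + (E.a₃ + 1) * E.a₃ + E.a₄)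
    {Q : E.Point} (hQ : Q ≠ 0) (hx : xc Q - xc Q ^ 2 ≠ 0) :
    φ (φ Q) - φ Q + (Q + Q) = 0 := by
  have e := equation_xc_yc hQ
  have hu := u_ne_zero i3 hx
  have hφQ := hφ.ne Q hQ
  have hP' : -φ Q ≠ 0 := neg_ne_zero.2 hφQ
  have hxP' : xc (-φ Q) = xc Q ^ 2 := by rw [xc_neg, hφ.hx]
  have hyP' : yc (-φ Q) = -yc Q ^ 2 - xc Q ^ 2 - E.a₃ := by
    rw [yc_neg hφQ, hφ.hx, hφ.hy, negY, h1]; ring
  have hd2 : 2 * yc Q + E.a₁ * xc Q + E.a₃ = xc Q + E.a₃ := by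
    rw [two_mul_zero, h1]; ring
  obtain ⟨hR0, hxR, hyR⟩ := add_poly hQ hP' (by rw [hxP']; exact sub_ne_zero.1 hx)
  obtain ⟨h2Q, hx2, hy2⟩ := dbl_poly hQ (by rw [hd2]; exact hu)
  rw [hxP', hyP', h1, h23] at hxR
  rw [hxP', hyP', h1] at hyR
  rw [hd2, h1, h23] at hx2
  rw [hd2, h1, h23] at hy2
  rw [h1, h23, h8] at e
  obtain ⟨c1, c2, c3, c4⟩ := coords_aux hx hu hxR hyR hx2 hy2 (polyA_pos i3 i4 e)
    (polyB_pos i3 i4 e) (polyC_pos i3 i4 e)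
  have hmain : Q + Q = φ (Q + -φ Q) := by
    refine point_ext h2Q (hφ.ne _ hR0) ?_ ?_
    · rw [hφ.hx]; exact c1
    · rw [hφ.hy]
      apply mul_right_cancel₀ (pow_ne_zero 4 hu)
      rw [c4, polyD_pos i3 i4 e, ← c2]; ring
  rw [hmain, map_add, map_neg]
  abel

theorem ord_neg (hφ : FrobData 2 φ) (h1 : E.a₁ = 1) (i3 : E.a₃ ^ 2 = E.a₃) (i4 : E.a₄ ^ 2 = E.a₄)
    (h23 : E.a₂ = E.a₃) (h8 : E.a₆ = 1 + E.a₃ * E.a₄ + E.a₃ * E.a₃ + E.a₄)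
    {Q : E.Point} (hQ : Q ≠ 0) (hx : xc Q - xc Q ^ 2 ≠ 0) :
    φ (φ Q) + φ Q + (Q + Q) = 0 := by
  have e := equation_xc_yc hQ
  have hu := u_ne_zero i3 hx
  have hφQ := hφ.ne Q hQ
  have hxP' : xc (φ Q) = xc Q ^ 2 := hφ.hx Q
  have hyP' : yc (φ Q) = yc Q ^ 2 := hφ.hy Q
  have hd2 : 2 * yc Q + E.a₁ * xc Q + E.a₃ = xc Q + E.a₃ := by
    rw [two_mul_zero, h1]; ring
  obtain ⟨hR0, hxR, hyR⟩ := add_poly hQ hφQ (by rw [hxP']; exact sub_ne_zero.1 hx)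
  obtain ⟨h2Q, hx2, hy2⟩ := dbl_poly hQ (by rw [hd2]; exact hu)
  rw [hxP', hyP', h1, h23] at hxR
  rw [hxP', hyP', h1] at hyR
  rw [hd2, h1, h23] at hx2
  rw [hd2, h1, h23] at hy2
  rw [h1, h23, h8] at e
  obtain ⟨c1, c2, c3, c4⟩ := coords_aux hx hu hxR hyR hx2 hy2 (polyA_neg i3 i4 e)
    (polyB_neg i3 i4 e) (polyC_neg i3 i4 e)
  have hφR := hφ.ne _ hR0
  have hmain : Q + Q = -φ (Q + φ Q) := by
    refine point_ext h2Q (neg_ne_zero.2 hφR) ?_ ?_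
    · rw [xc_neg, hφ.hx]; exact c1
    · rw [yc_neg hφR, hφ.hx, hφ.hy, negY, h1]
      apply mul_right_cancel₀ (pow_ne_zero 4 hu)
      rw [c4, polyD_neg i3 i4 e, ← c2, ← c3]; ring
  rw [hmain, map_add]
  abel

end points

end Fermat.Agent.S58.Two
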