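import Fermat.Agent.S58.Two.Chord

/-!
# S58 / E9 : supersingular curves over `𝔽₂` (`a₁ = 0`, `a₃ = 1`)

* `a₂ = a₄` : `φ² + 2 = 0`;
* `a₂ = a₄ + 1`, `a₆ = 1` : `φ² - 2φ + 2 = 0`; `a₆ = 0` : `φ² + 2φ + 2 = 0`
  (`R = Q ∓ φQ = (x + 1, y + x + a₂)`, `2R = -φ²Q`).
-/

set_option autoImplicit false
set_option linter.unusedVariables false
set_option linter.unusedSectionVars false

namespace Fermat.Agent.S58.Two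

open WeierstrassCurve WeierstrassCurve.Affine WeierstrassCurve.Affine.Point
open Fermat.Agent.S05 Fermat.Agent.HW

section polys

variable {L : Type*} [Field L] [CharP L 2] {x y a4 a6 : L}

theorem ss0_x (i4 : a4 ^ 2 = a4) :
    (3 * x ^ 2 + 2 * a4 * x + a4 - 0 * y) ^ 2
      + 0 * (3 * x ^ 2 + 2 * a4 * x + a4 - 0 * y) * 1 - (a4 + 2 * x) * 1 ^ 2 = (x ^ 2) ^ 2 := by
  grind

theorem ss0_y (i4 : a4 ^ 2 = a4) (i6 : a6 ^ 2 = a6)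
    (e : y ^ 2 + 0 * x * y + 1 * y = x ^ 3 + a4 * x ^ 2 + a4 * x + a6) :
    -((3 * x ^ 2 + 2 * a4 * x + a4 - 0 * y) * ((x ^ 2) ^ 2 - x) + y * 1)
      - (0 * (x ^ 2) ^ 2 + 1) * 1 = -(y ^ 2) ^ 2 - 0 * (x ^ 2) ^ 2 - 1 := by
  grind

theorem ssA_pos (i4 : a4 ^ 2 = a4)
    (e : y ^ 2 + 0 * x * y + 1 * y = x ^ 3 + (a4 + 1) * x ^ 2 + a4 * x + 1) :
    (y - (-y ^ 2 - 0 * x ^ 2 - 1)) ^ 2 + 0 * (y - (-y ^ 2 - 0 * x ^ 2 - 1)) * (x - x ^ 2)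
      - ((a4 + 1) + x + x ^ 2) * (x - x ^ 2) ^ 2 = (x + 1) * (x - x ^ 2) ^ 2 := by
  grind

theorem ssB_pos (i4 : a4 ^ 2 = a4)
    (e : y ^ 2 + 0 * x * y + 1 * y = x ^ 3 + (a4 + 1) * x ^ 2 + a4 * x + 1) :
    -((y - (-y ^ 2 - 0 * x ^ 2 - 1)) * ((x + 1) - x) + y * (x - x ^ 2))
      - (0 * (x + 1) + 1) * (x - x ^ 2) = (y + x + (a4 + 1)) * (x - x ^ 2) := by
  grind

theorem ssA_neg (i4 : a4 ^ 2 = a4)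
    (e : y ^ 2 + 0 * x * y + 1 * y = x ^ 3 + (a4 + 1) * x ^ 2 + a4 * x + 0) :
    (y - y ^ 2) ^ 2 + 0 * (y - y ^ 2) * (x - x ^ 2)
      - ((a4 + 1) + x + x ^ 2) * (x - x ^ 2) ^ 2 = (x + 1) * (x - x ^ 2) ^ 2 := by
  grind

theorem ssB_neg (i4 : a4 ^ 2 = a4)
    (e : y ^ 2 + 0 * x * y + 1 * y = x ^ 3 + (a4 + 1) * x ^ 2 + a4 * x + 0) :
    -((y - y ^ 2) * ((x + 1) - x) + y * (x - x ^ 2))
      - (0 * (x + 1) + 1) * (x - x ^ 2) = (y + x + (a4 + 1)) * (x - x ^ 2) := by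
  grind

theorem ssC (i4 : a4 ^ 2 = a4) :
    (3 * (x + 1) ^ 2 + 2 * (a4 + 1) * (x + 1) + a4 - 0 * (y + x + (a4 + 1))) ^ 2
      + 0 * (3 * (x + 1) ^ 2 + 2 * (a4 + 1) * (x + 1) + a4 - 0 * (y + x + (a4 + 1))) * 1
      - ((a4 + 1) + 2 * (x + 1)) * 1 ^ 2 = (x ^ 2) ^ 2 := by
  grind

theorem ssD (i4 : a4 ^ 2 = a4) (i6 : a6 ^ 2 = a6)
    (e : y ^ 2 + 0 * x * y + 1 * y = x ^ 3 + (a4 + 1) * x ^ 2 + a4 * x + a6) :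
    -((3 * (x + 1) ^ 2 + 2 * (a4 + 1) * (x + 1) + a4 - 0 * (y + x + (a4 + 1)))
        * ((x ^ 2) ^ 2 - (x + 1)) + (y + x + (a4 + 1)) * 1)
      - (0 * (x ^ 2) ^ 2 + 1) * 1 = -(y ^ 2) ^ 2 - 0 * (x ^ 2) ^ 2 - 1 := by
  grind

end polys

section points

variable {L : Type*} [Field L] [CharP L 2] [DecidableEq L] {E : WeierstrassCurve.Affine L}
  {φ : E.Point →+ E.Point}

theorem ss_d (h1 : E.a₁ = 0) (h3 : E.a₃ = 1) (P : E.Point) :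
    2 * yc P + E.a₁ * xc P + E.a₃ = 1 := by
  rw [CharTwo.two_eq_zero, h1, h3]; ring

/-- `-φ²Q` in coordinates -/
theorem neg_frob_frob (hφ : FrobData 2 φ) {Q : E.Point} (hQ : Q ≠ 0) :
    -φ (φ Q) ≠ 0 ∧ xc (-φ (φ Q)) = (xc Q ^ 2) ^ 2 ∧
      yc (-φ (φ Q)) = -(yc Q ^ 2) ^ 2 - E.a₁ * (xc Q ^ 2) ^ 2 - E.a₃ := by
  have h1 := hφ.ne _ (hφ.ne Q hQ)
  refine ⟨neg_ne_zero.2 h1, ?_, ?_⟩
  · rw [xc_neg, hφ.hx, hφ.hx]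
  · rw [yc_neg h1, hφ.hx, hφ.hx, hφ.hy, hφ.hy, negY]

theorem ss_zero (hφ : FrobData 2 φ) (h1 : E.a₁ = 0) (h3 : E.a₃ = 1) (h24 : E.a₂ = E.a₄)
    (i4 : E.a₄ ^ 2 = E.a₄) (i6 : E.a₆ ^ 2 = E.a₆) (Q : E.Point) :
    φ (φ Q) + (Q + Q) = 0 := by
  by_cases hQ : Q = 0
  · rw [hQ]; simp
  have e := equation_xc_yc hQ
  obtain ⟨h2Q, hx2, hy2⟩ := dbl_poly hQ (by rw [ss_d h1 h3]; exact one_ne_zero)
  obtain ⟨n0, nx, ny⟩ := neg_frob_frob hφ hQ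
  rw [ss_d h1 h3, h1, h24] at hx2
  rw [ss_d h1 h3, h1, h24, h3] at hy2
  rw [h1, h3, h24] at e
  rw [h1, h3] at ny
  have hX : xc (Q + Q) = (xc Q ^ 2) ^ 2 := by
    rw [← ss0_x (y := yc Q) i4, ← hx2]; ring
  have hmain : Q + Q = -φ (φ Q) := by
    refine point_ext h2Q n0 (by rw [hX, nx]) ?_
    rw [ny, ← ss0_y i4 i6 e, ← hX, ← hy2]; ring
  rw [hmain]; abel

/-- common end: `R = (x+1, y+x+a₂)` ⟹ `2R = -φ²Q`. -/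
theorem ss_dbl (hφ : FrobData 2 φ) (h1 : E.a₁ = 0) (h3 : E.a₃ = 1) (h24 : E.a₂ = E.a₄ + 1)
    (i4 : E.a₄ ^ 2 = E.a₄) (i6 : E.a₆ ^ 2 = E.a₆) {Q R : E.Point} (hQ : Q ≠ 0) (hR : R ≠ 0)
    (hxR : xc R = xc Q + 1) (hyR : yc R = yc Q + xc Q + (E.a₄ + 1)) :
    φ (φ Q) + (R + R) = 0 := by
  have e := equation_xc_yc hQ
  obtain ⟨h2R, hx2, hy2⟩ := dbl_poly hR (by rw [ss_d h1 h3]; exact one_ne_zero)
  obtain ⟨n0, nx, ny⟩ := neg_frob_frob hφ hQ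
  rw [ss_d h1 h3, h1, h24, hxR, hyR] at hx2
  rw [ss_d h1 h3, h1, h24, h3, hxR, hyR] at hy2
  rw [h1, h3, h24] at e
  rw [h1, h3] at ny
  have hX : xc (R + R) = (xc Q ^ 2) ^ 2 := by
    rw [← ssC (y := yc Q) i4, ← hx2]; ring
  have hmain : R + R = -φ (φ Q) := by
    refine point_ext h2R n0 (by rw [hX, nx]) ?_
    rw [ny, ← ssD i4 i6 e, ← hX, ← hy2]; ring
  rw [hmain]; abel

theorem ss_pos (hφ : FrobData 2 φ) (h1 : E.a₁ = 0) (h3 : E.a₃ = 1) (h24 : E.a₂ = E.a₄ + 1)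
    (i4 : E.a₄ ^ 2 = E.a₄) (h6 : E.a₆ = 1) {Q : E.Point} (hQ : Q ≠ 0)
    (hx : xc Q - xc Q ^ 2 ≠ 0) :
    φ (φ Q) - (φ Q + φ Q) + (Q + Q) = 0 := by
  have e := equation_xc_yc hQ
  have hφQ := hφ.ne Q hQ
  have hP' : -φ Q ≠ 0 := neg_ne_zero.2 hφQ
  have hxP' : xc (-φ Q) = xc Q ^ 2 := by rw [xc_neg, hφ.hx]
  have hyP' : yc (-φ Q) = -yc Q ^ 2 - 0 * xc Q ^ 2 - 1 := by
    rw [yc_neg hφQ, hφ.hx, hφ.hy, negY, h1, h3]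
  obtain ⟨hR0, hxR, hyR⟩ := add_poly hQ hP' (by rw [hxP']; exact sub_ne_zero.1 hx)
  rw [hxP', hyP', h1, h24] at hxR
  rw [h1, h3, h24, h6] at e
  have cX : xc (Q + -φ Q) = xc Q + 1 := by
    apply mul_right_cancel₀ (pow_ne_zero 2 hx)
    rw [hxR, ssA_pos i4 e]
  rw [hxP', hyP', h1, h3, cX] at hyR
  have cY : yc (Q + -φ Q) = yc Q + xc Q + (E.a₄ + 1) := by
    apply mul_right_cancel₀ hx
    rw [hyR, ssB_pos i4 e]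
  have := ss_dbl hφ h1 h3 h24 i4 (by rw [h6]; ring) hQ hR0 cX cY
  rw [← this]; abel

theorem ss_neg (hφ : FrobData 2 φ) (h1 : E.a₁ = 0) (h3 : E.a₃ = 1) (h24 : E.a₂ = E.a₄ + 1)
    (i4 : E.a₄ ^ 2 = E.a₄) (h6 : E.a₆ = 0) {Q : E.Point} (hQ : Q ≠ 0)
    (hx : xc Q - xc Q ^ 2 ≠ 0) :
    φ (φ Q) + (φ Q + φ Q) + (Q + Q) = 0 := by
  have e := equation_xc_yc hQ
  have hφQ := hφ.ne Q hQ
  have hxP' : xc (φ Q) = xc Q ^ 2 := hφ.hx Q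
  have hyP' : yc (φ Q) = yc Q ^ 2 := hφ.hy Q
  obtain ⟨hR0, hxR, hyR⟩ := add_poly hQ hφQ (by rw [hxP']; exact sub_ne_zero.1 hx)
  rw [hxP', hyP', h1, h24] at hxR
  rw [h1, h3, h24, h6] at e
  have cX : xc (Q + φ Q) = xc Q + 1 := by
    apply mul_right_cancel₀ (pow_ne_zero 2 hx)
    rw [hxR, ssA_neg i4 e]
  rw [hxP', hyP', h1, h3, cX] at hyR
  have cY : yc (Q + φ Q) = yc Q + xc Q + (E.a₄ + 1) := by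
    apply mul_right_cancel₀ hx
    rw [hyR, ssB_neg i4 e]
  have := ss_dbl hφ h1 h3 h24 i4 (by rw [h6]; ring) hQ hR0 cX cY
  rw [← this]; abel

end points

end Fermat.Agent.S58.Two
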