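import Fermat.Agent.HW.Red
import Fermat.Agent.HW.Defs

/-!
# S58 / E9 : chord and tangent formulas in polynomial form
-/

set_option autoImplicit false

namespace Fermat.Agent.S58.Two

open WeierstrassCurve WeierstrassCurve.Affine WeierstrassCurve.Affine.Point
open Fermat.Agent.S05

variable {L : Type*} [Field L] [DecidableEq L] {E : WeierstrassCurve.Affine L}

/-- chord -/
theorem add_poly {P P' : E.Point} (hP : P ≠ 0) (hP' : P' ≠ 0) (hx : xc P ≠ xc P') :
    P + P' ≠ 0 ∧
    xc (P + P') * (xc P - xc P') ^ 2 = (yc P - yc P') ^ 2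
      + E.a₁ * (yc P - yc P') * (xc P - xc P') - (E.a₂ + xc P + xc P') * (xc P - xc P') ^ 2 ∧
    yc (P + P') * (xc P - xc P') = -((yc P - yc P') * (xc (P + P') - xc P)
      + yc P * (xc P - xc P')) - (E.a₁ * xc (P + P') + E.a₃) * (xc P - xc P') := by
  cases P with
  | zero => exact absurd rfl hP
  | some x1 y1 h1 =>
    cases P' with
    | zero => exact absurd rfl hP'
    | some x2 y2 h2 =>
      simp only [xc_some, yc_some] at hx ⊢
      have hd : x1 - x2 ≠ 0 := sub_ne_zero.2 hx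
      rw [add_of_X_ne hx]
      refine ⟨some_ne_zero _, ?_, ?_⟩
      · simp only [xc_some, addX, slope_of_X_ne hx]
        field_simp
        ring
      · simp only [xc_some, yc_some, addX, addY, negAddY, negY, slope_of_X_ne hx]
        field_simp
        ring

/-- tangent -/
theorem dbl_poly {P : E.Point} (hP : P ≠ 0) (hd : 2 * yc P + E.a₁ * xc P + E.a₃ ≠ 0) :
    P + P ≠ 0 ∧
    xc (P + P) * (2 * yc P + E.a₁ * xc P + E.a₃) ^ 2
      = (3 * xc P ^ 2 + 2 * E.a₂ * xc P + E.a₄ - E.a₁ * yc P) ^ 2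
      + E.a₁ * (3 * xc P ^ 2 + 2 * E.a₂ * xc P + E.a₄ - E.a₁ * yc P)
          * (2 * yc P + E.a₁ * xc P + E.a₃)
      - (E.a₂ + 2 * xc P) * (2 * yc P + E.a₁ * xc P + E.a₃) ^ 2 ∧
    yc (P + P) * (2 * yc P + E.a₁ * xc P + E.a₃)
      = -((3 * xc P ^ 2 + 2 * E.a₂ * xc P + E.a₄ - E.a₁ * yc P) * (xc (P + P) - xc P)
      + yc P * (2 * yc P + E.a₁ * xc P + E.a₃))
      - (E.a₁ * xc (P + P) + E.a₃) * (2 * yc P + E.a₁ * xc P + E.a₃) := by
  cases P with
  | zero => exact absurd rfl hP
  | some x1 y1 h1 =>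
      simp only [xc_some, yc_some] at hd ⊢
      have hy : y1 ≠ E.negY x1 y1 := by
        intro hy
        apply hd
        simp only [negY] at hy
        linear_combination hy
      have e : y1 - E.negY x1 y1 = 2 * y1 + E.a₁ * x1 + E.a₃ := by simp only [negY]; ring
      rw [add_self_of_Y_ne hy]
      obtain ⟨D, hD⟩ : ∃ D, D = 2 * y1 + E.a₁ * x1 + E.a₃ := ⟨_, rfl⟩
      rw [← hD] at hd e ⊢
      refine ⟨some_ne_zero _, ?_, ?_⟩
      · simp only [xc_some, addX, slope_of_Y_ne rfl hy, e]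
        field_simp
        ring
      · simp only [xc_some, yc_some, addX, addY, negAddY, slope_of_Y_ne rfl hy, e]
        simp only [negY]
        field_simp
        ring

end Fermat.Agent.S58.Two
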